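import Mathlib

/-!
# GATE-J / J2-AUTO (2): two field-theoretic lemmas (Mathlib only)

* `sum_div_sum_mem_adjoin` : if `x i / G, y i / G` lie in the base field `K` then
  `(∑ x i t^i) / (∑ y i t^i) ∈ K(t)`.
* `adjoin_simple_eq_of_roots` : if `t` is a root of a monic polynomial of degree `≤ d` over `K`,
  `y ∈ K(t)` and the minimal polynomial of `y` has `≥ d` distinct roots in `M`, then `K(y) = K(t)`.
-/

set_option autoImplicit false

namespace Fermat.Agent.GJ.Auto

open Polynomial IntermediateField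

variable {K M : Type*} [Field K] [Field M] [Algebra K M]

theorem sum_div_sum_mem_adjoin (t : M) (m : ℕ) (x y : ℕ → M) (G : M) (hG : G ≠ 0)
    (hx : ∀ i, i ≤ m → x i / G ∈ (algebraMap K M).range)
    (hy : ∀ i, i ≤ m → y i / G ∈ (algebraMap K M).range) :
    (∑ i ∈ Finset.range (m + 1), x i * t ^ i) / (∑ i ∈ Finset.range (m + 1), y i * t ^ i) ∈
      K⟮t⟯ := by
  have key : ∀ z : ℕ → M, (∀ i, i ≤ m → z i / G ∈ (algebraMap K M).range) →
      (∑ i ∈ Finset.range (m + 1), z i * t ^ i) / G ∈ K⟮t⟯ := by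
    intro z hz
    rw [Finset.sum_div]
    refine sum_mem fun i hi => ?_
    have hi' : i ≤ m := Nat.lt_succ_iff.mp (Finset.mem_range.mp hi)
    obtain ⟨c, hc⟩ := hz i hi'
    have : z i * t ^ i / G = algebraMap K M c * t ^ i := by
      rw [hc]
      field_simp
    rw [this]
    exact mul_mem (IntermediateField.algebraMap_mem _ c) (pow_mem (mem_adjoin_simple_self K t) i)
  have h1 := key x hx
  have h2 := key y hy
  have : (∑ i ∈ Finset.range (m + 1), x i * t ^ i) / (∑ i ∈ Finset.range (m + 1), y i * t ^ i) =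
      ((∑ i ∈ Finset.range (m + 1), x i * t ^ i) / G) /
        ((∑ i ∈ Finset.range (m + 1), y i * t ^ i) / G) := by
    rw [div_div_div_cancel_right₀ hG]
  rw [this]
  exact div_mem h1 h2

theorem adjoin_simple_eq_of_roots {t y : M} {d : ℕ} (P : K[X]) (hP : P.Monic)
    (hdeg : P.natDegree ≤ d) (hroot : aeval t P = 0) (hy : y ∈ K⟮t⟯) (S : Finset M)
    (hS : d ≤ S.card) (hSroot : ∀ s ∈ S, aeval s (minpoly K y) = 0) : K⟮y⟯ = K⟮t⟯ := by
  have ht : IsIntegral K t := ⟨P, hP, hroot⟩
  have : FiniteDimensional K K⟮t⟯ := adjoin.finiteDimensional ht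
  have hle : K⟮y⟯ ≤ K⟮t⟯ := adjoin_simple_le_iff.mpr hy
  have hyint : IsIntegral K y := by
    have h1 : IsIntegral K (⟨y, hy⟩ : K⟮t⟯) := IsIntegral.of_finite K _
    exact (isIntegral_iff (S := K⟮t⟯) (x := ⟨y, hy⟩)).mp h1
  refine eq_of_le_of_finrank_le hle ?_
  rw [adjoin.finrank ht, adjoin.finrank hyint]
  have h1 : (minpoly K t).natDegree ≤ d := by
    have := natDegree_le_natDegree (minpoly.min K t hP hroot)
    exact this.trans hdeg
  have h2 : S.card ≤ (minpoly K y).natDegree := by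
    have hμ : (minpoly K y).map (algebraMap K M) ≠ 0 :=
      (Polynomial.map_ne_zero_iff (algebraMap K M).injective).mpr (minpoly.ne_zero hyint)
    have hsub : S.val ⊆ ((minpoly K y).map (algebraMap K M)).roots := by
      intro s hs
      rw [mem_roots hμ, IsRoot.def, eval_map, ← aeval_def]
      exact hSroot s (Finset.mem_def.mpr hs)
    have := card_le_degree_of_subset_roots hsub
    rwa [natDegree_map] at this
  omega

theorem exists_monic_of_relation (t : M) (d : ℕ) (c : ℕ → K)
    (h : t ^ d + ∑ l ∈ Finset.range d, algebraMap K M (c l) * t ^ l = 0) :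
    ∃ P : K[X], P.Monic ∧ P.natDegree ≤ d ∧ aeval t P = 0 := by
  have hdeg : (∑ l ∈ Finset.range d, C (c l) * X ^ l : K[X]).degree < (d : ℕ) := by
    refine (degree_sum_le _ _).trans_lt ?_
    rw [Finset.sup_lt_iff (WithBot.bot_lt_coe _)]
    intro l hl
    refine (degree_C_mul_X_pow_le l (c l)).trans_lt ?_
    exact_mod_cast Finset.mem_range.mp hl
  have hmonic : (X ^ d + ∑ l ∈ Finset.range d, C (c l) * X ^ l : K[X]).Monic :=
    monic_X_pow_add hdeg
  refine ⟨X ^ d + ∑ l ∈ Finset.range d, C (c l) * X ^ l, hmonic, ?_, ?_⟩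
  · have h1 : (X ^ d + ∑ l ∈ Finset.range d, C (c l) * X ^ l : K[X]).degree = (d : ℕ) := by
      rw [degree_add_eq_left_of_degree_lt]
      · exact degree_X_pow d
      · rw [degree_X_pow]
        exact hdeg
    exact natDegree_le_of_degree_le h1.le
  · rw [map_add, map_pow, aeval_X, map_sum]
    rw [← h]
    congr 1
    refine Finset.sum_congr rfl fun l _ => ?_
    rw [map_mul, map_pow, aeval_X, aeval_C]

theorem aeval_ringHom_apply (φ : M →+* M)
    (hφ : ∀ c : K, φ (algebraMap K M c) = algebraMap K M c) (x : M) (p : K[X]) :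
    aeval (φ x) p = φ (aeval x p) := by
  rw [aeval_def, aeval_def, hom_eval₂]
  congr 1
  exact RingHom.ext fun c => (hφ c).symm

/-- the sandwich with conjugates: if `t` has degree `≤ d` over `K`, `y ∈ K(t)` and `y` has `≥ d`
pairwise distinct conjugates under ring endomorphisms of `M` fixing `K`, then `K(y) = K(t)`. -/
theorem adjoin_simple_eq_of_conjugates {t y : M} {d : ℕ} (P : K[X]) (hP : P.Monic)
    (hdeg : P.natDegree ≤ d) (hroot : aeval t P = 0) (hy : y ∈ K⟮t⟯)
    {ι : Type*} [Fintype ι] (φ : ι → M →+* M)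
    (hφ : ∀ i c, φ i (algebraMap K M c) = algebraMap K M c)
    (hinj : Function.Injective fun i => φ i y) (hcard : d ≤ Fintype.card ι) : K⟮y⟯ = K⟮t⟯ := by
  classical
  refine adjoin_simple_eq_of_roots P hP hdeg hroot hy (Finset.univ.image fun i => φ i y) ?_ ?_
  · rw [Finset.card_image_of_injective _ hinj, Finset.card_univ]
    exact hcard
  · intro s hs
    obtain ⟨i, _, rfl⟩ := Finset.mem_image.mp hs
    rw [aeval_ringHom_apply (φ i) (hφ i), minpoly.aeval, map_zero]

end Fermat.Agent.GJ.Auto
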