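import Mathlib
import Fermat.Agent.S16.LevelOneMain
import Fermat.Agent.S28.JFunction
import Fermat.Agent.S23.Basic

/-!
# GATE-J / J2-AUTO (1): ratios of level-one modular forms are rational functions of `j`

* `exists_poly_of_weight_twelve_mul` : a level-one form of weight `12 n` is `Δ^n · p(j)` for a
  polynomial `p ∈ ℂ[X]`.
* `exists_poly_ratio` : for level-one forms `a, G` of the same weight with `G ≠ 0` there are
  polynomials `p, r`, `r ≠ 0`, with `a · r(j) = G · p(j)`.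
-/

set_option autoImplicit false

noncomputable section

namespace Fermat.Agent.GJ.Auto

open UpperHalfPlane ModularForm ModularFormClass EisensteinSeries
open Fermat.Agent.S28 Fermat.Agent.S23 Fermat.Agent.S16.L1h67
open scoped MatrixGroups ModularForm Manifold

local notation "Δ" => ModularForm.discriminant

theorem E4_cube_eq (τ : ℍ) : E₄ τ ^ 3 = Δ τ * jFun τ := by
  have hΔ : Δ τ ≠ 0 := discriminant_ne_zero τ
  rw [jFun]
  field_simp

theorem E6_sq_eq (τ : ℍ) : E₆ τ ^ 2 = Δ τ * (jFun τ - 1728) := by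
  have h := discriminant_eq_E₄_cube_sub_E₆_sq τ
  have h3 := E4_cube_eq τ
  rw [mul_sub, ← h3, h]
  ring

/-- the predicate "`F = Δ^n · p(j)` for a polynomial `p`" -/
def IsPolyJ (n : ℕ) (F : ℍ → ℂ) : Prop :=
  ∃ p : Polynomial ℂ, ∀ τ, F τ = Δ τ ^ n * p.eval (jFun τ)

theorem isPolyJ_mono {a b c n : ℕ} (h : (4 * a + 6 * b + 12 * c : ℤ) = 12 * n) :
    IsPolyJ n (mono a b c) := by
  have h' : 4 * a + 6 * b + 12 * c = 12 * n := by exact_mod_cast h
  obtain ⟨a', rfl⟩ : 3 ∣ a := by omega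
  obtain ⟨b', rfl⟩ : 2 ∣ b := by omega
  have hn : n = a' + b' + c := by omega
  refine ⟨Polynomial.X ^ a' * (Polynomial.X - Polynomial.C 1728) ^ b', fun τ => ?_⟩
  simp only [mono, Polynomial.eval_mul, Polynomial.eval_pow, Polynomial.eval_X, Polynomial.eval_sub,
    Polynomial.eval_C]
  rw [pow_mul, pow_mul, E4_cube_eq, E6_sq_eq, hn, mul_pow, mul_pow, pow_add, pow_add]
  ring

theorem isPolyJ_of_mem_isoSpan {n : ℕ} {F : ℍ → ℂ}
    (hF : F ∈ isoSpan (⊤ : Subring ℂ) (12 * n)) : IsPolyJ n F := by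
  refine Submodule.span_induction (p := fun F _ => IsPolyJ n F) ?_ ?_ ?_ ?_ hF
  · rintro G ⟨a, b, c, h, rfl⟩
    exact isPolyJ_mono h
  · exact ⟨0, fun τ => by simp⟩
  · rintro x y _ _ ⟨p, hp⟩ ⟨r, hr⟩
    refine ⟨p + r, fun τ => ?_⟩
    rw [Pi.add_apply, hp, hr, Polynomial.eval_add]
    ring
  · rintro ⟨c, hc⟩ x _ ⟨p, hp⟩
    refine ⟨Polynomial.C c * p, fun τ => ?_⟩
    rw [Pi.smul_apply, hp, Polynomial.eval_mul, Polynomial.eval_C, Subring.smul_def, smul_eq_mul]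
    ring

/-- **Level one, weight `12 n`**: every form is `Δ^n · p(j)`. -/
theorem exists_poly_of_weight_twelve_mul (n : ℕ) {F : ℍ → ℂ} (hF : IsMF 𝒮ℒ (12 * n) F) :
    ∃ p : Polynomial ℂ, ∀ τ, F τ = Δ τ ^ n * p.eval (jFun τ) := by
  obtain ⟨f, rfl⟩ := hF
  exact isPolyJ_of_mem_isoSpan (mem_isoSpan ⊤ _ f fun _ => Subring.mem_top _)

/-- **Level one ratios**: for level-one forms `a, G` of the same weight, `G ≠ 0`, there are
polynomials `p, r` with `r ≠ 0` and `a · r(j) = G · p(j)`; i.e. `a / G = p(j) / r(j)`. -/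
theorem exists_poly_ratio {W : ℤ} {a G : ℍ → ℂ} (ha : IsMF 𝒮ℒ W a) (hG : IsMF 𝒮ℒ W G)
    (hG0 : G ≠ 0) :
    ∃ p r : Polynomial ℂ, r ≠ 0 ∧ ∀ τ, a τ * r.eval (jFun τ) = G τ * p.eval (jFun τ) := by
  -- the weight is nonnegative
  have hW : 0 ≤ W := by
    by_contra hneg
    rw [not_le] at hneg
    obtain ⟨g, rfl⟩ := hG
    exact hG0 (levelOne_neg_weight_eq_zero hneg g)
  obtain ⟨w, rfl⟩ : ∃ w : ℕ, W = w := ⟨W.toNat, (Int.toNat_of_nonneg hW).symm⟩
  have h12 : IsMF 𝒮ℒ (12 * (w : ℤ)) (G ^ 12) := by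
    have := hG.pow 12
    exact this.congr_weight (by push_cast; ring)
  have h11 : IsMF 𝒮ℒ (12 * (w : ℤ)) (a * G ^ 11) := by
    have := ha.mul (hG.pow 11)
    exact this.congr_weight (by push_cast; ring)
  obtain ⟨r, hr⟩ := exists_poly_of_weight_twelve_mul w h12
  obtain ⟨p, hp⟩ := exists_poly_of_weight_twelve_mul w h11
  refine ⟨p, r, ?_, fun τ => ?_⟩
  · rintro rfl
    apply hG0
    funext τ
    have := hr τ
    simp only [Pi.pow_apply, Polynomial.eval_zero, mul_zero] at this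
    exact pow_eq_zero_iff (by norm_num) |>.mp this
  · have hΔ : Δ τ ^ w ≠ 0 := pow_ne_zero _ (discriminant_ne_zero τ)
    have h1 := hr τ
    have h2 := hp τ
    simp only [Pi.pow_apply, Pi.mul_apply] at h1 h2
    apply mul_left_cancel₀ hΔ
    calc Δ τ ^ w * (a τ * r.eval (jFun τ)) = a τ * (Δ τ ^ w * r.eval (jFun τ)) := by ring
      _ = a τ * G τ ^ 12 := by rw [h1]
      _ = G τ * (a τ * G τ ^ 11) := by ring
      _ = G τ * (Δ τ ^ w * p.eval (jFun τ)) := by rw [h2]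
      _ = Δ τ ^ w * (G τ * p.eval (jFun τ)) := by ring

end Fermat.Agent.GJ.Auto
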