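import Mathlib
import Fermat.Agent.GJ.J2.Auto.LevelOne
import Fermat.Agent.S24_helper82.Realize2
import Fermat.Agent.GJ.J2.Dict.RealizeC

/-!
# GATE-J / J2-AUTO (3): from functions on `ℍ` to `Mer`

A total cast `hol : (ℍ → ℂ) → Hol` (junk value `0` on non-holomorphic functions), `mer f` its image
in `Mer = Frac Hol`, the subfield `K0 = ℂ(j) ⊆ Mer`, and the level-one ratio theorem in `Mer`:
`mer a / mer G ∈ ℂ(j)` for level-one forms `a, G` of the same weight.
-/

set_option autoImplicit false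

noncomputable section

namespace Fermat.Agent.GJ.Auto

open UpperHalfPlane ModularForm
open Fermat.Agent.S28 Fermat.Agent.S23 Fermat.Agent.S24_helper82
open scoped MatrixGroups ModularForm Manifold

/-- total cast of a function on `ℍ` to `Hol` (value `0` if the function is not holomorphic) -/
def hol (f : ℍ → ℂ) : Hol := by
  classical
  exact if h : f ∈ Hol then ⟨f, h⟩ else 0

theorem hol_of_mem {f : ℍ → ℂ} (h : f ∈ Hol) : hol f = ⟨f, h⟩ := by
  classical
  simp only [hol, dif_pos h]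

theorem coe_hol {f : ℍ → ℂ} (h : f ∈ Hol) : ((hol f : Hol) : ℍ → ℂ) = f := by
  rw [hol_of_mem h]

theorem hol_coe (f : Hol) : hol (f : ℍ → ℂ) = f := by
  rw [hol_of_mem f.2]

theorem hol_mul {f g : ℍ → ℂ} (hf : f ∈ Hol) (hg : g ∈ Hol) : hol (f * g) = hol f * hol g := by
  rw [hol_of_mem hf, hol_of_mem hg, hol_of_mem (Hol.mul_mem hf hg)]
  rfl

theorem hol_add {f g : ℍ → ℂ} (hf : f ∈ Hol) (hg : g ∈ Hol) : hol (f + g) = hol f + hol g := by
  rw [hol_of_mem hf, hol_of_mem hg, hol_of_mem (Hol.add_mem hf hg)]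
  rfl

theorem hol_pow {f : ℍ → ℂ} (hf : f ∈ Hol) (n : ℕ) : hol (f ^ n) = hol f ^ n := by
  rw [hol_of_mem hf, hol_of_mem (Hol.pow_mem hf n)]
  rfl

theorem hol_zero : hol 0 = 0 := by
  rw [hol_of_mem Hol.zero_mem]
  rfl

theorem hol_one : hol 1 = 1 := by
  rw [hol_of_mem Hol.one_mem]
  rfl

theorem hol_sum {ι : Type*} (s : Finset ι) (F : ι → ℍ → ℂ) (h : ∀ i ∈ s, F i ∈ Hol) :
    hol (∑ i ∈ s, F i) = ∑ i ∈ s, hol (F i) := by
  classical
  induction s using Finset.induction_on with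
  | empty => simp [hol_zero]
  | insert a s ha ih =>
    have h1 : F a ∈ Hol := h a (Finset.mem_insert_self a s)
    have h2 : ∀ i ∈ s, F i ∈ Hol := fun i hi => h i (Finset.mem_insert_of_mem hi)
    rw [Finset.sum_insert ha, Finset.sum_insert ha, hol_add h1 (Hol.sum_mem h2), ih h2]

theorem hol_eq_zero_iff {f : ℍ → ℂ} (hf : f ∈ Hol) : hol f = 0 ↔ f = 0 := by
  rw [hol_of_mem hf]
  constructor
  · intro h
    exact congrArg (fun x : Hol => (x : ℍ → ℂ)) h
  · intro h
    exact Subtype.ext h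

theorem mem_Hol_of_isMF {Γ : Subgroup (GL (Fin 2) ℝ)} {k : ℤ} {f : ℍ → ℂ} (hf : IsMF Γ k f) :
    f ∈ Hol := hf.mdiff

/-- the image of a function in `Mer` -/
def mer (f : ℍ → ℂ) : Mer := algebraMap Hol Mer (hol f)

theorem mer_mul {f g : ℍ → ℂ} (hf : f ∈ Hol) (hg : g ∈ Hol) : mer (f * g) = mer f * mer g := by
  rw [mer, hol_mul hf hg, map_mul]
  rfl

theorem mer_pow {f : ℍ → ℂ} (hf : f ∈ Hol) (n : ℕ) : mer (f ^ n) = mer f ^ n := by
  rw [mer, hol_pow hf, map_pow]
  rfl

theorem mer_sum {ι : Type*} (s : Finset ι) (F : ι → ℍ → ℂ) (h : ∀ i ∈ s, F i ∈ Hol) :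
    mer (∑ i ∈ s, F i) = ∑ i ∈ s, mer (F i) := by
  rw [mer, hol_sum s F h, map_sum]
  rfl

theorem mer_zero : mer 0 = 0 := by rw [mer, hol_zero, map_zero]

theorem mer_one : mer 1 = 1 := by rw [mer, hol_one, map_one]

theorem mer_eq_zero_iff {f : ℍ → ℂ} (hf : f ∈ Hol) : mer f = 0 ↔ f = 0 := by
  rw [mer, map_eq_zero_iff _ (IsFractionRing.injective Hol Mer), hol_eq_zero_iff hf]

theorem mer_coe (f : Hol) : mer (f : ℍ → ℂ) = algebraMap Hol Mer f := by
  rw [mer, hol_coe]

/-- `j` as an element of `Mer` -/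
def jM : Mer := algebraMap Hol Mer jHol

/-- the subfield `ℂ(j)` of `Mer` -/
def K0 : IntermediateField ℂ Mer := IntermediateField.adjoin ℂ {jM}

theorem jM_mem_K0 : jM ∈ K0 := IntermediateField.subset_adjoin ℂ _ rfl

theorem aeval_jM_mem_K0 (p : Polynomial ℂ) : Polynomial.aeval jM p ∈ K0 := by
  rw [Polynomial.aeval_eq_sum_range]
  refine sum_mem fun i _ => ?_
  rw [Algebra.smul_def]
  exact mul_mem (IntermediateField.algebraMap_mem _ _) (pow_mem jM_mem_K0 i)

theorem aeval_jM (p : Polynomial ℂ) :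
    Polynomial.aeval jM p = algebraMap Hol Mer (Polynomial.aeval jHol p) := by
  rw [jM, Polynomial.aeval_algebraMap_apply]

theorem aeval_jM_ne_zero {p : Polynomial ℂ} (hp : p ≠ 0) : Polynomial.aeval jM p ≠ 0 := by
  rw [aeval_jM]
  exact algebraMap_ne_zero (aeval_ne_zero_of_nonconstant jHol UpperHalfPlane.I jHol_sub_ne_zero hp)

/-- **Level-one ratios in `Mer`**: the ratio of two level-one forms of the same weight lies in
`ℂ(j)`. -/
theorem mer_div_mer_mem_K0 {W : ℤ} {a G : ℍ → ℂ} (ha : IsMF 𝒮ℒ W a) (hG : IsMF 𝒮ℒ W G)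
    (hG0 : G ≠ 0) : mer a / mer G ∈ K0 := by
  obtain ⟨p, r, hr, h⟩ := exists_poly_ratio ha hG hG0
  have hH : hol a * Polynomial.aeval jHol r = hol G * Polynomial.aeval jHol p := by
    apply Subtype.ext
    funext τ
    show (hol a : ℍ → ℂ) τ * (Polynomial.aeval jHol r : ℍ → ℂ) τ =
      (hol G : ℍ → ℂ) τ * (Polynomial.aeval jHol p : ℍ → ℂ) τ
    rw [coe_hol (mem_Hol_of_isMF ha), coe_hol (mem_Hol_of_isMF hG), aeval_apply, aeval_apply, jHol_apply]
    exact h τ
  have hM : mer a * Polynomial.aeval jM r = mer G * Polynomial.aeval jM p := by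
    rw [aeval_jM, aeval_jM, mer, mer, ← map_mul, ← map_mul, hH]
  have hG' : mer G ≠ 0 := fun h0 => hG0 ((mer_eq_zero_iff (mem_Hol_of_isMF hG)).mp h0)
  have hr' := aeval_jM_ne_zero hr
  have : mer a / mer G = Polynomial.aeval jM p / Polynomial.aeval jM r := by
    rw [div_eq_div_iff hG' hr', hM]
    ring
  rw [this]
  exact div_mem (aeval_jM_mem_K0 p) (aeval_jM_mem_K0 r)

theorem compM_inv (g : SL(2, ℤ)) (a : Mer) : compM g a⁻¹ = (compM g a)⁻¹ := by
  by_cases ha : a = 0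
  · rw [ha, inv_zero, RingHom.map_zero, inv_zero]
  · have h1 : compM g a⁻¹ * compM g a = 1 := by
      rw [← RingHom.map_mul, inv_mul_cancel₀ ha, RingHom.map_one]
    exact eq_inv_of_mul_eq_one_left h1

/-- the subfield of `Mer` fixed by `compM g` -/
def fixedBy (g : SL(2, ℤ)) : IntermediateField ℂ Mer where
  carrier := {x | compM g x = x}
  mul_mem' := by
    intro a b ha hb
    show compM g (a * b) = a * b
    rw [RingHom.map_mul, ha, hb]
  one_mem' := RingHom.map_one _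
  add_mem' := by
    intro a b ha hb
    show compM g (a + b) = a + b
    rw [RingHom.map_add, ha, hb]
  zero_mem' := RingHom.map_zero _
  algebraMap_mem' := fun c => compM_const g c
  inv_mem' := by
    intro a ha
    show compM g a⁻¹ = a⁻¹
    rw [compM_inv, ha]

theorem mem_fixedBy (g : SL(2, ℤ)) (x : Mer) : x ∈ fixedBy g ↔ compM g x = x := Iff.rfl

theorem compM_jM (g : SL(2, ℤ)) : compM g jM = jM := by
  rw [jM, compM_algebraMap, show compSL g jHol = jHol from compSL_jDilHol_one g]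

/-- `compM g` fixes `ℂ(j)` pointwise. -/
theorem compM_of_mem_K0 (g : SL(2, ℤ)) {x : Mer} (hx : x ∈ K0) : compM g x = x := by
  have hle : K0 ≤ fixedBy g := by
    rw [K0, IntermediateField.adjoin_le_iff]
    rintro y (rfl : y = jM)
    exact compM_jM g
  exact hle hx

end Fermat.Agent.GJ.Auto
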