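import Mathlib
import Fermat.Agent.GJ.J2.Auto.MerBridge
import Fermat.Agent.GJ.J2.Auto.FieldAlg
import Fermat.Agent.S23.Lagrange
import Fermat.Agent.S23.Separating
import Fermat.Agent.S24_helper66.CosetSepJ

/-!
# GATE-J / J2-AUTO (4): ratios of modular forms on `Γ₀(N)` lie in the function field

`exists_realizeC_eq_div` : for `A, B` modular forms of the same weight on `Γ₀(N)`, `B ≠ 0`, the
meromorphic function `A / B` is the realisation of an element of `FC N = ℂ(j(q^d) : d ∣ N)`.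
-/

set_option autoImplicit false

noncomputable section

namespace Fermat.Agent.GJ.Auto

open UpperHalfPlane ModularForm SlashInvariantForm EisensteinSeries
open Fermat.Agent.S28 Fermat.Agent.S23 Fermat.Agent.S24 Fermat.Agent.S24_helper82
open Fermat.Agent.S28.CuspExp
open scoped MatrixGroups ModularForm Manifold

local notation "Δ" => ModularForm.discriminant

/-! ### Dilation of level-one forms -/

/-- `F ∣[k] diag(N, 1)` is a modular form on `Γ₀(N)` for a level-one form `F`. -/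
theorem isMF_dil (N : ℕ) [NeZero N] {k : ℤ} {F : ℍ → ℂ} (hF : IsMF 𝒮ℒ k F) :
    IsMF (G0 N) k (F ∣[k] heckeDiagMatrix N) := by
  obtain ⟨F, rfl⟩ := hF
  let F' := ModularForm.translate F (heckeDiagMatrix N)
  exact ⟨⟨⟨F', fun γ hγ => F'.slash_action_eq' γ (Separating.G0_le_conj_heckeDiag N hγ)⟩, F'.holo',
    fun hc => F'.bdd_at_cusps' (hc.mono (Separating.G0_le_conj_heckeDiag N))⟩, rfl⟩

theorem heckeDiagMatrix_smul_eq_dilate (N : ℕ) [NeZero N] (τ : ℍ) :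
    heckeDiagMatrix N • τ = dilate N (Nat.pos_of_ne_zero (NeZero.ne N)) τ := by
  apply UpperHalfPlane.ext
  rw [coe_heckeDiagMatrix_smul (NeZero.ne N), coe_dilate]

theorem isMF_E4_cube : IsMF 𝒮ℒ 12 ((E₄ : ℍ → ℂ) ^ 3) :=
  (E₄.isMF.pow 3).congr_weight (by norm_num)

theorem isMF_discriminant : IsMF 𝒮ℒ 12 Δ := by
  have := (CuspForm.isCF CuspForm.discriminant).isMF
  rwa [CuspForm.coe_discriminant] at this

/-- the numerator of `j(N τ)` -/
def jNum (N : ℕ) : ℍ → ℂ := ((E₄ : ℍ → ℂ) ^ 3) ∣[(12 : ℤ)] heckeDiagMatrix N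

/-- the denominator of `j(N τ)` -/
def jDen (N : ℕ) : ℍ → ℂ := (Δ : ℍ → ℂ) ∣[(12 : ℤ)] heckeDiagMatrix N

theorem isMF_jNum (N : ℕ) [NeZero N] : IsMF (G0 N) 12 (jNum N) := isMF_dil N isMF_E4_cube

theorem isMF_jDen (N : ℕ) [NeZero N] : IsMF (G0 N) 12 (jDen N) := isMF_dil N isMF_discriminant

theorem jDen_apply (N : ℕ) [NeZero N] (τ : ℍ) :
    jDen N τ = (N : ℂ) ^ (11 : ℤ) * Δ (heckeDiagMatrix N • τ) := by
  rw [jDen, slash_heckeDiagMatrix_apply 12 (NeZero.ne N)]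
  norm_num

theorem jNum_apply (N : ℕ) [NeZero N] (τ : ℍ) :
    jNum N τ = (N : ℂ) ^ (11 : ℤ) * E₄ (heckeDiagMatrix N • τ) ^ 3 := by
  rw [jNum, slash_heckeDiagMatrix_apply 12 (NeZero.ne N)]
  norm_num

theorem jDen_ne_zero (N : ℕ) [NeZero N] : jDen N ≠ 0 := by
  intro h
  have h1 := congrFun h UpperHalfPlane.I
  rw [jDen_apply] at h1
  have hN : ((N : ℂ)) ^ (11 : ℤ) ≠ 0 := zpow_ne_zero _ (by exact_mod_cast NeZero.ne N)
  exact (mul_ne_zero hN (discriminant_ne_zero _)) h1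

theorem jNum_eq (N : ℕ) [NeZero N] :
    jNum N = (jDilHol N (Nat.pos_of_ne_zero (NeZero.ne N)) : ℍ → ℂ) * jDen N := by
  funext τ
  show jNum N τ = jDil N _ τ * jDen N τ
  rw [jNum_apply, jDen_apply, jDil, ← heckeDiagMatrix_smul_eq_dilate, E4_cube_eq]
  ring

/-- `j(N τ)` as an element of `Mer` -/
def jNM (N : ℕ) [NeZero N] : Mer :=
  algebraMap Hol Mer (jDilHol N (Nat.pos_of_ne_zero (NeZero.ne N)))

theorem mer_jNum_div (N : ℕ) [NeZero N] : mer (jNum N) / mer (jDen N) = jNM N := by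
  have hD : mer (jDen N) ≠ 0 := fun h =>
    jDen_ne_zero N ((mer_eq_zero_iff (mem_Hol_of_isMF (isMF_jDen N))).mp h)
  rw [div_eq_iff hD, jNum_eq, mer_mul (jDilHol N _).2 (mem_Hol_of_isMF (isMF_jDen N)), mer_coe, jNM]

/-! ### The separating form -/

theorem hdist_sep (N : ℕ) [NeZero N] : ∀ γ ∈ 𝒮ℒ, γ ∉ G0 N →
    (Separating.sepForm N : ℍ → ℂ) ∣[(4 : ℤ)] γ ≠ Separating.sepForm N := by
  rintro _ ⟨γ, rfl⟩ hγ
  exact Separating.sepForm_slash_ne N γ fun h => hγ ⟨γ, h, rfl⟩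

theorem E4_ne_zero : (E₄ : ℍ → ℂ) ≠ 0 := by
  intro h
  have h1 := Separating.tendsto_E4_atImInfty
  have h2 : Filter.Tendsto (fun τ : ℍ => (E₄ : ℍ → ℂ) τ) atImInfty (nhds 0) := by
    rw [h]
    exact tendsto_const_nhds
  exact one_ne_zero (tendsto_nhds_unique h1 h2)

theorem mer_E4_ne_zero : mer (E₄ : ℍ → ℂ) ≠ 0 := fun h =>
  E4_ne_zero ((mer_eq_zero_iff (mem_Hol_of_isMF E₄.isMF)).mp h)

/-! ### The Lagrange step -/

section Lag

variable (N : ℕ) [NeZero N]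

local notation "𝒬" => 𝒮ℒ ⧸ (Subgroup.subgroupOf (G0 N) 𝒮ℒ)

noncomputable local instance : Fintype 𝒬 := Fintype.ofFinite 𝒬

noncomputable local instance : DecidableEq 𝒬 := Classical.decEq _

/-- the weight-zero separating function `t = (E₄ ∣ diag(N,1)) / E₄` -/
def tM : Mer := mer (Separating.sepForm N : ℍ → ℂ) / mer (E₄ : ℍ → ℂ)

theorem mer_sum_eq (d : ℕ) (a : ℕ → ℍ → ℂ) (ha : ∀ i, i < d → a i ∈ Hol) :
    mer (∑ i ∈ Finset.range d, a i * (Separating.sepForm N : ℍ → ℂ) ^ i) =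
      ∑ i ∈ Finset.range d, mer (a i * (E₄ : ℍ → ℂ) ^ i) * tM N ^ i := by
  have hT : (Separating.sepForm N : ℍ → ℂ) ∈ Hol := mem_Hol_of_isMF (Separating.sepForm N).isMF
  have hE : (E₄ : ℍ → ℂ) ∈ Hol := mem_Hol_of_isMF E₄.isMF
  rw [mer_sum]
  · refine Finset.sum_congr rfl fun i hi => ?_
    have hi' := Finset.mem_range.mp hi
    rw [mer_mul (ha i hi') (Hol.pow_mem hT i), mer_mul (ha i hi') (Hol.pow_mem hE i), mer_pow hT,
      mer_pow hE, tM, div_pow]
    have := pow_ne_zero i mer_E4_ne_zero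
    field_simp
  · intro i hi
    exact Hol.mul_mem (ha i (Finset.mem_range.mp hi)) (Hol.pow_mem hT i)

theorem div_mem_adjoin_tM {k : ℤ} {A B : ℍ → ℂ} (hA : IsMF (G0 N) k A) (hB : IsMF (G0 N) k B)
    (hB0 : B ≠ 0) :
    mer A / mer B ∈ (IntermediateField.adjoin (↥K0) {tM N} : IntermediateField (↥K0) Mer) := by
  obtain ⟨FA, rfl⟩ := hA
  obtain ⟨FB, rfl⟩ := hB
  have hpos : 0 < Fintype.card 𝒬 := card_pos (Γ := G0 N)
  have hS := bsum_ne_zero (Separating.sepForm N) (hdist_sep N)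
  have hlA := lagrange_fun FA (Separating.sepForm N)
  have hlB := lagrange_fun FB (Separating.sepForm N)
  have hT : (Separating.sepForm N : ℍ → ℂ) ∈ Hol := mem_Hol_of_isMF (Separating.sepForm N).isMF
  have haA : ∀ i, i < Fintype.card 𝒬 → aFun FA (Separating.sepForm N) i ∈ Hol := fun i hi =>
    mem_Hol_of_isMF (isMF_aFun FA (Separating.sepForm N) (by omega))
  have haB : ∀ i, i < Fintype.card 𝒬 → aFun FB (Separating.sepForm N) i ∈ Hol := fun i hi =>
    mem_Hol_of_isMF (isMF_aFun FB (Separating.sepForm N) (by omega))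
  have hSmem : (∑ i ∈ Finset.range (Fintype.card 𝒬),
      bFun (Separating.sepForm N) i * (Separating.sepForm N : ℍ → ℂ) ^ i) ∈ Hol := by
    refine Hol.sum_mem fun i hi => Hol.mul_mem ?_ (Hol.pow_mem hT i)
    exact mem_Hol_of_isMF (isMF_bFun (Separating.sepForm N)
      (by have := Finset.mem_range.mp hi; omega))
  have hSM := (mer_eq_zero_iff hSmem).not.mpr hS
  have hBM : mer (FB : ℍ → ℂ) ≠ 0 := (mer_eq_zero_iff (mem_Hol_of_isMF FB.isMF)).not.mpr hB0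
  have eA := congrArg mer hlA
  have eB := congrArg mer hlB
  rw [mer_mul (mem_Hol_of_isMF FA.isMF) hSmem, mer_sum_eq N _ _ haA] at eA
  rw [mer_mul (mem_Hol_of_isMF FB.isMF) hSmem, mer_sum_eq N _ _ haB] at eB
  have hden : ∑ i ∈ Finset.range (Fintype.card 𝒬),
      mer (aFun FB (Separating.sepForm N) i * (E₄ : ℍ → ℂ) ^ i) * tM N ^ i ≠ 0 := by
    rw [← eB]
    exact mul_ne_zero hBM hSM
  obtain ⟨i0, hi0, hne⟩ := Finset.exists_ne_zero_of_sum_ne_zero hden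
  have hi0' := Finset.mem_range.mp hi0
  -- weights
  have hw : ∀ (F : ModularForm (G0 N) k) (i : ℕ), i ≤ Fintype.card 𝒬 - 1 →
      IsMF 𝒮ℒ (k + ((Fintype.card 𝒬 - 1 : ℕ) : ℤ) * 4)
        (aFun F (Separating.sepForm N) i * (E₄ : ℍ → ℂ) ^ i) := by
    intro F i hi
    refine ((isMF_aFun F (Separating.sepForm N) hi).mul (E₄.isMF.pow i)).congr_weight ?_
    rw [Nat.cast_sub hi]
    ring
  have hg0 := hw FB i0 (by omega)
  have hg0ne : aFun FB (Separating.sepForm N) i0 * (E₄ : ℍ → ℂ) ^ i0 ≠ 0 := by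
    intro h
    apply hne
    rw [h, mer_zero, zero_mul]
  have hG : mer (aFun FB (Separating.sepForm N) i0 * (E₄ : ℍ → ℂ) ^ i0) ≠ 0 :=
    (mer_eq_zero_iff (mem_Hol_of_isMF hg0)).not.mpr hg0ne
  have hratio : mer (FA : ℍ → ℂ) / mer (FB : ℍ → ℂ) =
      (∑ i ∈ Finset.range (Fintype.card 𝒬),
        mer (aFun FA (Separating.sepForm N) i * (E₄ : ℍ → ℂ) ^ i) * tM N ^ i) /
      (∑ i ∈ Finset.range (Fintype.card 𝒬),
        mer (aFun FB (Separating.sepForm N) i * (E₄ : ℍ → ℂ) ^ i) * tM N ^ i) := by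
    rw [← eA, ← eB, mul_div_mul_right _ _ hSM]
  rw [hratio]
  have hm : Fintype.card 𝒬 - 1 + 1 = Fintype.card 𝒬 := by omega
  have key := sum_div_sum_mem_adjoin (K := ↥K0) (tM N) (Fintype.card 𝒬 - 1)
    (fun i => mer (aFun FA (Separating.sepForm N) i * (E₄ : ℍ → ℂ) ^ i))
    (fun i => mer (aFun FB (Separating.sepForm N) i * (E₄ : ℍ → ℂ) ^ i))
    (mer (aFun FB (Separating.sepForm N) i0 * (E₄ : ℍ → ℂ) ^ i0)) hG
    (fun i hi => ⟨⟨_, mer_div_mer_mem_K0 (hw FA i hi) hg0 hg0ne⟩, rfl⟩)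
    (fun i hi => ⟨⟨_, mer_div_mer_mem_K0 (hw FB i hi) hg0 hg0ne⟩, rfl⟩)
  rwa [hm] at key

/-! ### `t` is a root of a monic polynomial of degree `[SL₂(ℤ) : Γ₀(N)]` over `ℂ(j)` -/

theorem sum_sFun_mul_pow :
    ∑ l ∈ Finset.range (Fintype.card 𝒬 + 1),
      sFun (Separating.sepForm N) l * (Separating.sepForm N : ℍ → ℂ) ^ l = 0 := by
  funext z
  simp only [Finset.sum_apply, Pi.mul_apply, Pi.pow_apply, Pi.zero_apply, sFun]
  set x : 𝒬 → ℂ := fun q => quotientFunc (Separating.sepForm N) q z with hx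
  have h1 : x ((1 : 𝒮ℒ) : 𝒬) = (Separating.sepForm N : ℍ → ℂ) z := by
    rw [hx]
    exact congrFun (quotientFunc_one (Separating.sepForm N)) z
  have h2 : (rootPoly x).eval (x ((1 : 𝒮ℒ) : 𝒬)) = 0 := by
    rw [rootPoly_eq_mul_cofPoly x ((1 : 𝒮ℒ) : 𝒬)]
    simp
  rw [Polynomial.eval_eq_sum_range' (n := Fintype.card 𝒬 + 1)
    (by rw [natDegree_rootPoly]; omega), h1] at h2
  exact h2

theorem sFun_card : sFun (Separating.sepForm N) (Fintype.card 𝒬) = 1 := by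
  funext z
  simp only [sFun, Pi.one_apply]
  have h := (rootPoly_monic fun q : 𝒬 => quotientFunc (Separating.sepForm N) q z).coeff_natDegree
  rwa [natDegree_rootPoly] at h

theorem exists_monic_tM : ∃ P : Polynomial (↥K0), P.Monic ∧ P.natDegree ≤ Fintype.card 𝒬 ∧
    Polynomial.aeval (tM N) P = 0 := by
  have hT : (Separating.sepForm N : ℍ → ℂ) ∈ Hol := mem_Hol_of_isMF (Separating.sepForm N).isMF
  have hE : (E₄ : ℍ → ℂ) ∈ Hol := mem_Hol_of_isMF E₄.isMF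
  have he := mer_E4_ne_zero
  -- the coefficients
  have hc : ∀ l : ℕ, ∃ c : ↥K0, l ≤ Fintype.card 𝒬 →
      (c : Mer) = mer (sFun (Separating.sepForm N) l) / mer (E₄ : ℍ → ℂ) ^ (Fintype.card 𝒬 - l) := by
    intro l
    by_cases hl : l ≤ Fintype.card 𝒬
    · have h1 := isMF_sFun (Separating.sepForm N) hl
      have h2 : IsMF 𝒮ℒ (((Fintype.card 𝒬 - l : ℕ) : ℤ) * 4)
          ((E₄ : ℍ → ℂ) ^ (Fintype.card 𝒬 - l)) := E₄.isMF.pow _
      have h3 := mer_div_mer_mem_K0 h1 h2 (pow_ne_zero _ E4_ne_zero)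
      rw [mer_pow hE] at h3
      exact ⟨⟨_, h3⟩, fun _ => rfl⟩
    · exact ⟨0, fun h => absurd h hl⟩
  choose c hc using hc
  have hsMem : ∀ l, l ≤ Fintype.card 𝒬 → sFun (Separating.sepForm N) l ∈ Hol := fun l hl =>
    mem_Hol_of_isMF (isMF_sFun (Separating.sepForm N) hl)
  -- the relation in `Mer`
  have hrel := congrArg mer (sum_sFun_mul_pow N)
  rw [mer_zero, mer_sum _ _ (fun l hl => Hol.mul_mem (hsMem l (by
    have := Finset.mem_range.mp hl; omega)) (Hol.pow_mem hT l)), Finset.sum_range_succ,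
    sFun_card, one_mul, mer_pow hT] at hrel
  -- the relation for `t`
  apply exists_monic_of_relation (K := ↥K0) (tM N) (Fintype.card 𝒬) c
  have hmul : mer (E₄ : ℍ → ℂ) ^ (Fintype.card 𝒬) ≠ 0 := pow_ne_zero _ he
  apply mul_left_cancel₀ hmul
  rw [mul_zero, mul_add, Finset.mul_sum, ← hrel, add_comm]
  congr 1
  · refine Finset.sum_congr rfl fun l hl => ?_
    have hl' := Finset.mem_range.mp hl
    rw [mer_mul (hsMem l hl'.le) (Hol.pow_mem hT l), mer_pow hT]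
    show mer (E₄ : ℍ → ℂ) ^ Fintype.card 𝒬 * ((c l : Mer) * tM N ^ l) = _
    rw [hc l hl'.le, tM, div_pow]
    have e1 : mer (E₄ : ℍ → ℂ) ^ Fintype.card 𝒬 =
        mer (E₄ : ℍ → ℂ) ^ (Fintype.card 𝒬 - l) * mer (E₄ : ℍ → ℂ) ^ l := by
      rw [← pow_add, Nat.sub_add_cancel hl'.le]
    rw [e1]
    have h1 := pow_ne_zero (Fintype.card 𝒬 - l) he
    have h2 := pow_ne_zero l he
    field_simp
  · rw [tM, div_pow]
    field_simp

/-! ### `j(N τ)` has `[SL₂(ℤ) : Γ₀(N)]` distinct conjugates -/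

theorem jNM_mem_adjoin_tM :
    jNM N ∈ (IntermediateField.adjoin (↥K0) {tM N} : IntermediateField (↥K0) Mer) := by
  rw [← mer_jNum_div]
  exact div_mem_adjoin_tM N (isMF_jNum N) (isMF_jDen N) (jDen_ne_zero N)

/-- the natural surjection `SL₂(ℤ)/Γ₀(N) → 𝒮ℒ/G0(N)` -/
def toQ : I0 N → 𝒬 :=
  Quotient.map' (fun γ : SL(2, ℤ) => (⟨Matrix.SpecialLinearGroup.mapGL ℝ γ, ⟨γ, rfl⟩⟩ : 𝒮ℒ))
    (by
      intro a b hab
      rw [QuotientGroup.leftRel_apply] at hab ⊢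
      rw [Subgroup.mem_subgroupOf]
      exact ⟨a⁻¹ * b, hab, by simp⟩)

omit [NeZero N] in
theorem toQ_surjective : Function.Surjective (toQ N) := by
  intro q
  induction q using Quotient.inductionOn with
  | h r =>
    obtain ⟨r, ⟨γ, rfl⟩⟩ := r
    exact ⟨((γ : SL(2, ℤ)) : I0 N), rfl⟩

theorem card_le_card_I0 : Fintype.card 𝒬 ≤ Fintype.card (I0 N) :=
  Fintype.card_le_of_surjective _ (toQ_surjective N)

theorem conj_jNM_injective :
    Function.Injective fun q : I0 N => compM (q.out)⁻¹ (jNM N) := by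
  intro q q' h
  simp only [jNM, compM_algebraMap] at h
  have h1 := IsFractionRing.injective Hol Mer h
  have h2 : ((q.out : SL(2, ℤ)) : I0 N) = ((q'.out : SL(2, ℤ)) : I0 N) := by
    refine Fermat.Agent.S24_helper66.CosetSep.coset_eq_of_jDil_eq
      (Nat.pos_of_ne_zero (NeZero.ne N)) q.out q'.out (fun τ => ?_)
    have h3 := congrArg (fun f : Hol => (f : ℍ → ℂ) τ) h1
    exact h3
  rwa [QuotientGroup.out_eq', QuotientGroup.out_eq'] at h2

/-- `ℂ(j)(j_N) = ℂ(j)(t)` inside `Mer`. -/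
theorem adjoin_jNM_eq_adjoin_tM :
    (IntermediateField.adjoin (↥K0) {jNM N} : IntermediateField (↥K0) Mer) =
      IntermediateField.adjoin (↥K0) {tM N} := by
  obtain ⟨P, hP, hdeg, hroot⟩ := exists_monic_tM N
  exact adjoin_simple_eq_of_conjugates P hP hdeg hroot (jNM_mem_adjoin_tM N)
    (fun q : I0 N => compM (q.out)⁻¹) (fun q c => compM_of_mem_K0 _ c.2)
    (conj_jNM_injective N) (card_le_card_I0 N)

/-! ### The main theorem -/

theorem adjoin_le_fieldRange :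
    IntermediateField.adjoin ℂ (({jM} : Set Mer) ∪ {jNM N}) ≤ (Dict.realizeC N).fieldRange := by
  rw [IntermediateField.adjoin_le_iff]
  rintro x (hx | hx)
  · rw [Set.mem_singleton_iff] at hx
    subst hx
    exact ⟨Dict.jC N, Dict.realizeC_jC N⟩
  · rw [Set.mem_singleton_iff] at hx
    subst hx
    exact ⟨Dict.jdC N N dvd_rfl, Dict.realizeC_jdC N N dvd_rfl⟩

/-- **J2-AUTO, membership form**: the ratio of two modular forms of the same weight on `Γ₀(N)`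
lies in `ℂ(j, j_N) ⊆ realizeC (FC N)`. -/
theorem mer_div_mer_mem_adjoin {k : ℤ} {A B : ℍ → ℂ} (hA : IsMF (G0 N) k A)
    (hB : IsMF (G0 N) k B) (hB0 : B ≠ 0) :
    mer A / mer B ∈ IntermediateField.adjoin ℂ (({jM} : Set Mer) ∪ {jNM N}) := by
  have h1 := div_mem_adjoin_tM N hA hB hB0
  rw [← adjoin_jNM_eq_adjoin_tM] at h1
  have h2 : mer A / mer B ∈ IntermediateField.restrictScalars ℂ
      (IntermediateField.adjoin (↥(IntermediateField.adjoin ℂ ({jM} : Set Mer))) {jNM N}) := h1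
  rwa [IntermediateField.adjoin_adjoin_left] at h2

theorem mer_div_mer_mem_fieldRange {k : ℤ} {A B : ℍ → ℂ} (hA : IsMF (G0 N) k A)
    (hB : IsMF (G0 N) k B) (hB0 : B ≠ 0) : mer A / mer B ∈ (Dict.realizeC N).fieldRange :=
  adjoin_le_fieldRange N (mer_div_mer_mem_adjoin N hA hB hB0)

/-- **J2-AUTO** (`(E4)` of J2-DICT for ratios of forms): for `A, B` modular forms of the same weight
on `Γ₀(N)` with `B ≠ 0`, the meromorphic function `A / B` on `ℍ` is the realisation of an element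
of the function field `FC N = ℂ(j(q^d) : d ∣ N)` of `X₀(N)` over `ℂ`. -/
theorem exists_realizeC_eq_div {k : ℤ} {A B : ℍ → ℂ} (hA : IsMF (G0 N) k A)
    (hB : IsMF (G0 N) k B) (hB0 : B ≠ 0) :
    ∃ f : Dict.FC N, Dict.realizeC N f =
      algebraMap Hol Mer ⟨A, mem_Hol_of_isMF hA⟩ / algebraMap Hol Mer ⟨B, mem_Hol_of_isMF hB⟩ := by
  obtain ⟨f, hf⟩ := mer_div_mer_mem_fieldRange N hA hB hB0
  refine ⟨f, hf.trans ?_⟩
  rw [mer, mer, hol_of_mem (mem_Hol_of_isMF hA), hol_of_mem (mem_Hol_of_isMF hB)]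

/-- bundled version -/
theorem exists_realizeC_eq_div_modularForm {k : ℤ} (A B : ModularForm (G0 N) k) (hB0 : B ≠ 0) :
    ∃ f : Dict.FC N, Dict.realizeC N f =
      algebraMap Hol Mer ⟨A, A.holo'⟩ / algebraMap Hol Mer ⟨B, B.holo'⟩ :=
  exists_realizeC_eq_div N A.isMF B.isMF (fun h => hB0 (DFunLike.coe_injective h))

end Lag

end Fermat.Agent.GJ.Auto
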