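import Mathlib
import Fermat.Agent.GJ.J2.Auto.Main
import Fermat.Agent.GJ.J2.TwistedEisKum

/-!
# GATE-J / J2 (B2) = (F6) specialised: `h_χ ^ p` lies in the function field `FC N`

`h_χ = E_{k,χ} / E_{k,1}` (helper94's `TwEis.hChi`).  Since `h_χ ^ p` is the quotient of the two
modular forms `E_{k,χ}^p`, `E_{k,1}^p` of weight `p k` on `Γ₀(N)` (`TwEis.hChi_pow_eq`), J2-AUTO
(`Auto.exists_realizeC_eq_div_modularForm`) shows that it is the realisation of an element of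
`FC N`.  Consequently `(h_φ, u)` is a Kummer datum over `ℂ` for every parabolic `φ : Γ₀(N) → ℤ/p`.
-/

set_option autoImplicit false

noncomputable section

namespace Fermat.Agent.GJ.Auto

open UpperHalfPlane CongruenceSubgroup
open Fermat.Agent.S24_helper82 Fermat.Agent.GJ.TwEis Fermat.Agent.GJ.Dict
open scoped MatrixGroups

variable {N : ℕ} [NeZero N]

/-- **(B2)**: `h_χ ^ p ∈ realizeC (FC N)` when `χ ^ p = 1`. -/
theorem exists_realizeC_eq_hChi_pow {χ : ↥(Gamma0 N) →* ℂˣ} (hpar : IsParabolicChar χ)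
    (hunit : ∀ γ, ‖((χ γ : ℂˣ) : ℂ)‖ = 1) {k : ℤ} (hk : 3 ≤ k) (hk2 : Even k) (p : ℕ)
    (hχp : ∀ γ, χ γ ^ p = 1) :
    ∃ u : FC N, realizeC N u = hChi hunit hk ^ p := by
  rw [hChi_pow_eq hpar hunit hk p hχp]
  refine exists_realizeC_eq_div_modularForm N _ _ ?_
  intro h0
  have h1 := congrArg (fun F : ModularForm (Gamma0 N) ((p : ℤ) * k) => (F : ℍ → ℂ)) h0
  simp only [coe_EchiPowMF] at h1
  have h2 : Echi (1 : ↥(Gamma0 N) →* ℂˣ) k = 0 := by
    funext z
    have := congrFun h1 z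
    simp only [Pi.pow_apply, FunLike.coe_zero, Pi.zero_apply] at this
    by_cases hp : p = 0
    · subst hp
      simp at this
    · exact (pow_eq_zero_iff hp).mp this
  exact Echi_ne_zero isParabolicChar_one hunit_one hk hk2 h2

/-- **ExC, pointwise**: for a parabolic `φ : Γ₀(N) → ℤ/p` and a `p`-th root of unity `ζ` there is
`u ∈ FC N` such that `(h_φ, u)` is a Kummer datum for the realisation `realizeC N` over `ℂ`. -/
theorem exists_isKumDatum_hPhi (p : ℕ) [NeZero p] (ζ : rootsOfUnity p ℂ)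
    (φ : Additive ↥(Gamma0 N) →+ ZMod p)
    (hφ : ModularCurve.Period.IsParabolicHom (Gamma0 N) φ) {k : ℤ} (hk : 3 ≤ k) (hk2 : Even k) :
    ∃ u : FC N, KumCore.IsKumDatum (realizeC N).toRingHom (((ζ : ℂˣ) : ℂ)) φ (hPhi p ζ φ hk) u := by
  obtain ⟨u, hu⟩ := exists_realizeC_eq_hChi_pow (isParabolicChar_chiPhi p ζ φ hφ)
    (chiPhi_unit p ζ φ) hk hk2 p (chiPhi_pow p ζ φ)
  exact ⟨u, isKumDatum_hPhi p (realizeC N).toRingHom ζ φ hφ hk hk2 u hu⟩

/-- **ExC**: existence of Kummer data over `ℂ` for every parabolic homomorphism (weight `k = 4`). -/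
theorem exists_isKumDatum (p : ℕ) [NeZero p] (ζ : rootsOfUnity p ℂ)
    (φ : Additive ↥(Gamma0 N) →+ ZMod p)
    (hφ : ModularCurve.Period.IsParabolicHom (Gamma0 N) φ) :
    ∃ (h : Mer) (u : FC N),
      KumCore.IsKumDatum (realizeC N).toRingHom (((ζ : ℂˣ) : ℂ)) φ h u := by
  obtain ⟨u, hu⟩ := exists_isKumDatum_hPhi p ζ φ hφ (k := 4) (by norm_num) ⟨2, by norm_num⟩
  exact ⟨_, u, hu⟩

end Fermat.Agent.GJ.Auto
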