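import Mathlib
import Fermat.Agent.GJ.J2.Auto.EisField
import Fermat.Agent.GJ.J2.EigDesc

/-!
# GATE-J / J2: the input `ExC` of `EigAsm.eig_of_C` is a theorem

Every good character `ψ : Γ₀(N) → ℤ/p` has a Kummer datum over `ℂ` (twisted Eisenstein ratio
`h_ψ`, and `u ∈ FC N` with `realizeC N u = h_ψ ^ p` by J2-AUTO).
-/

set_option autoImplicit false

noncomputable section

namespace Fermat.Agent.GJ.Auto

open Fermat.Agent.GJ.EigAsm

/-- **(EXC)** is a theorem for every `p`-th root of unity `ζ`. -/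
theorem exC (N : ℕ) [NeZero N] (p : ℕ) [Fact p.Prime] {ζ : ℂ} (hζ : ζ ^ p = 1) :
    ExC N p ζ := by
  have : NeZero p := ⟨(Fact.out : p.Prime).ne_zero⟩
  intro ψ hψ
  obtain ⟨h, u, D⟩ := exists_isKumDatum (N := N) p (rootsOfUnity.mkOfPowEq ζ hζ) ψ hψ.1
  refine ⟨h, u, ?_⟩
  rwa [rootsOfUnity.coe_mkOfPowEq] at D

end Fermat.Agent.GJ.Auto
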