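import Mathlib
import Fermat.Agent.GJ.J2.Dict.FieldGenCor
import Fermat.Agent.GJ.J2.EigDesc

/-!
# GATE-J / J2: the input `SatC` of `EigAsm.eig_of_C` is a theorem

Adapter: helper41's `(F5)` (`exists_realizeC_eq_of_pow`: `Γ₀(N)`-invariant `p`-th roots of modular
functions are modular functions) in the shape `EigAsm.SatC N p`.
-/

set_option autoImplicit false

noncomputable section

namespace Fermat.Agent.GJ.Auto

open Fermat.Agent.GJ.EigAsm Fermat.Agent.S24_helper82
open scoped MatrixGroups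

/-- **(SATC)** is a theorem. -/
theorem satC (N : ℕ) [NeZero N] (p : ℕ) [Fact p.Prime] : SatC N p := by
  intro m hm ⟨f, hf⟩
  obtain ⟨f', hf'⟩ := Fermat.Agent.GJ.Dict.FieldGen.exists_realizeC_eq_of_pow N
    (Fact.out : p.Prime).pos m (fun γ hγ => hm ⟨γ, hγ⟩) f hf.symm
  exact ⟨f', hf'⟩

end Fermat.Agent.GJ.Auto
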